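import Fermat.Agent.SelmerAverage.Forms
import Mathlib.NumberTheory.Padics.PadicIntegers
import Mathlib.NumberTheory.Padics.RingHoms

/-!
# An integral form in every locally soluble class

Over `ℚ_p` a soluble form is equivalent to an integral one with the same invariants; triangular
matrices over `ℤ[1/p]` carry this to `ℚ` one prime at a time.
-/

set_option autoImplicit false
set_option linter.style.haveILetI false

noncomputable section

open FA.SiegelPoints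

namespace FA.SelmerAverage

namespace BQ

variable {K : Type*} [Field K]

/-- All coefficients in a subring. -/
def CoeffIn (S : Subring K) (f : BQ K) : Prop :=
  f.a ∈ S ∧ f.b ∈ S ∧ f.c ∈ S ∧ f.d ∈ S ∧ f.e ∈ S

theorem eval_mem {S : Subring K} {f : BQ K} (h : CoeffIn S f) {u w : K} (hu : u ∈ S) (hw : w ∈ S) :
    f.eval u w ∈ S := by
  obtain ⟨ha, hb, hc, hd, he⟩ := h
  simp only [eval]
  apply_rules [add_mem, mul_mem, pow_mem]

theorem coeffIn_act {S : Subring K} {f : BQ K} (h : CoeffIn S f) {p q r s : K} (hp : p ∈ S)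
    (hq : q ∈ S) (hr : r ∈ S) (hs : s ∈ S) : CoeffIn S (f.act p q r s) := by
  obtain ⟨ha, hb, hc, hd, he⟩ := h
  have h2 : (2 : K) ∈ S := by exact_mod_cast natCast_mem S 2
  have h3 : (3 : K) ∈ S := by exact_mod_cast natCast_mem S 3
  have h4 : (4 : K) ∈ S := by exact_mod_cast natCast_mem S 4
  have h6 : (6 : K) ∈ S := by exact_mod_cast natCast_mem S 6
  refine ⟨eval_mem ⟨ha, hb, hc, hd, he⟩ hp hr, ?_, ?_, ?_, eval_mem ⟨ha, hb, hc, hd, he⟩ hq hs⟩ <;>
    simp only [act] <;>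
    repeat' first | assumption | apply add_mem | apply mul_mem | apply pow_mem

theorem coeffIn_move {S : Subring K} {f : BQ K} (h : CoeffIn S f) {p q r s : K} (hp : p ∈ S)
    (hq : q ∈ S) (hr : r ∈ S) (hs : s ∈ S) (hdet : (p * s - q * r)⁻¹ ∈ S) :
    CoeffIn S (f.move p q r s) := by
  obtain ⟨ha, hb, hc, hd, he⟩ := coeffIn_act h hp hq hr hs
  have hk : ((p * s - q * r) ^ 2)⁻¹ ∈ S := by rw [← inv_pow]; exact pow_mem hdet 2
  exact ⟨mul_mem hk ha, mul_mem hk hb, mul_mem hk hc, mul_mem hk hd, mul_mem hk he⟩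

end BQ

open BQ

/-- The rationals integral at `q`. -/
def qInt (q : ℕ) [Fact q.Prime] : Subring ℚ :=
  (PadicInt.subring q).comap (Rat.castHom ℚ_[q])

theorem mem_qInt {q : ℕ} [Fact q.Prime] {x : ℚ} : x ∈ qInt q ↔ ‖(x : ℚ_[q])‖ ≤ 1 := Iff.rfl

theorem qInt_of_not_dvd {q : ℕ} [Fact q.Prime] {x : ℚ} (h : ¬ q ∣ x.den) : x ∈ qInt q :=
  mem_qInt.mpr (Padic.norm_rat_le_one h)

theorem not_dvd_of_qInt {q : ℕ} [Fact q.Prime] {x : ℚ} (h : x ∈ qInt q) : ¬ q ∣ x.den := by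
  intro hd
  have hq := (Fact.out : q.Prime)
  have hn : ¬ (q : ℤ) ∣ x.num := fun hdn =>
    hq.not_dvd_one (x.reduced ▸ Nat.dvd_gcd (Int.natCast_dvd.mp hdn) hd)
  have h1 : ‖((x.num : ℤ) : ℚ_[q])‖ = 1 :=
    le_antisymm (Padic.norm_int_le_one _) (not_lt.mp fun hlt =>
      hn ((Padic.norm_intCast_lt_one_iff).mp hlt))
  have h2 : ‖((x.den : ℤ) : ℚ_[q])‖ < 1 :=
    (Padic.norm_intCast_lt_one_iff).mpr (Int.natCast_dvd_natCast.mpr hd)
  have h3 : (x : ℚ_[q]) * ((x.den : ℤ) : ℚ_[q]) = ((x.num : ℤ) : ℚ_[q]) := by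
    have := congrArg (Rat.cast : ℚ → ℚ_[q]) (Rat.mul_den_eq_num x)
    push_cast at this ⊢
    exact this
  rw [← h3, norm_mul] at h1
  have := mul_le_of_le_one_left (norm_nonneg ((x.den : ℤ) : ℚ_[q])) (mem_qInt.mp h)
  linarith

/-- A rational with denominator a power of `p` close to a `p`-adic number. -/
theorem exists_close {p : ℕ} [Fact p.Prime] (z : ℚ_[p]) (a : ℤ) :
    ∃ c : ℚ, (∀ (q : ℕ) [Fact q.Prime], q ≠ p → c ∈ qInt q) ∧
      ‖(c : ℚ_[p]) - z‖ ≤ ‖(p : ℚ_[p]) ^ a‖ := by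
  have hp0 : (p : ℚ_[p]) ≠ 0 := by exact_mod_cast (Fact.out : p.Prime).ne_zero
  have hp1 : (1 : ℝ) < p := by exact_mod_cast (Fact.out : p.Prime).one_lt
  obtain ⟨k, hk⟩ := pow_unbounded_of_one_lt ‖z‖ hp1
  have hw : ‖z * (p : ℚ_[p]) ^ k‖ ≤ 1 := by
    rw [norm_mul, norm_pow, Padic.norm_p, inv_pow, ← div_eq_mul_inv, div_le_one (by positivity)]
    exact hk.le
  set w : ℤ_[p] := ⟨z * (p : ℚ_[p]) ^ k, hw⟩
  set m := (a + k).toNat
  set n := w.appr m
  refine ⟨(n : ℚ) / (p : ℚ) ^ k, fun q _ hq => ?_, ?_⟩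
  · refine mem_qInt.mpr ?_
    have : ‖((p : ℤ) : ℚ_[q])‖ = 1 := le_antisymm (Padic.norm_int_le_one _) (not_lt.mp fun hlt =>
      hq ((Nat.prime_dvd_prime_iff_eq Fact.out Fact.out).mp
        (Int.natCast_dvd_natCast.mp ((Padic.norm_intCast_lt_one_iff).mp hlt))))
    push_cast at this
    push_cast
    rw [norm_div, norm_pow, this, one_pow, div_one]
    exact_mod_cast Padic.norm_int_le_one (p := q) n
  · have h : ‖w - (n : ℤ_[p])‖ ≤ (p : ℝ) ^ (-(m : ℤ)) :=
      (PadicInt.norm_le_pow_iff_mem_span_pow _ m).mpr (PadicInt.appr_spec m w)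
    rw [PadicInt.norm_def] at h
    push_cast at h
    push_cast
    have e : (n : ℚ_[p]) / (p : ℚ_[p]) ^ k - z =
        -((z * (p : ℚ_[p]) ^ k - n) / (p : ℚ_[p]) ^ k) := by field_simp; ring
    rw [e, norm_neg, norm_div, norm_pow, Padic.norm_p, inv_pow, div_inv_eq_mul, norm_zpow,
      Padic.norm_p, inv_zpow, ← zpow_neg]
    calc _ ≤ (p : ℝ) ^ (-(m : ℤ)) * (p : ℝ) ^ k := mul_le_mul_of_nonneg_right h (by positivity)
      _ ≤ _ := by
        rw [← zpow_natCast (p : ℝ) k, ← zpow_add₀ (by positivity)]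
        exact zpow_le_zpow_right₀ hp1.le (by omega)

/-- An integral local form gives a rational triangular move integral at `p`. -/
theorem exists_triangular {p : ℕ} [Fact p.Prime] (f : BQ ℚ) {P Q R S : ℚ_[p]}
    (hd : P * S - Q * R ≠ 0)
    (h : CoeffIn (PadicInt.subring p) ((f.map (Rat.castHom ℚ_[p])).move P Q R S)) :
    ∃ (a b : ℤ) (c : ℚ), (∀ (q : ℕ) [Fact q.Prime], q ≠ p → c ∈ qInt q) ∧
      CoeffIn (qInt p) (f.move ((p : ℚ) ^ a) c 0 ((p : ℚ) ^ b)) := by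
  set F := f.map (Rat.castHom ℚ_[p])
  set Z := PadicInt.subring p
  have hmem : ∀ {z : ℚ_[p]}, z ∈ Z ↔ ‖z‖ ≤ 1 := Iff.rfl
  -- triangular
  obtain ⟨P', Q', S', hP', hS', hT⟩ : ∃ P' Q' S' : ℚ_[p], P' ≠ 0 ∧ S' ≠ 0 ∧
      CoeffIn Z (F.move P' Q' 0 S') := by
    by_cases hRS : S ≠ 0 ∧ ‖R‖ ≤ ‖S‖
    · obtain ⟨hS, hRS⟩ := hRS
      have hk : -R / S ∈ Z := hmem.mpr (by
        rw [norm_div, norm_neg]; exact div_le_one_of_le₀ hRS (norm_nonneg _))
      have h1 := coeffIn_move h (one_mem Z) (zero_mem Z) hk (one_mem Z)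
        (by simp)
      rw [move_move] at h1
      have e : R * 1 + S * (-R / S) = 0 := by field_simp; ring
      rw [e] at h1
      simp only [mul_one, mul_zero, zero_add] at h1
      refine ⟨_, _, _, ?_, hS, h1⟩
      intro h0
      refine hd ?_
      have : (P + Q * (-R / S)) * S = 0 := by rw [h0, zero_mul]
      field_simp at this
      linear_combination this
    · have hR : R ≠ 0 ∧ ‖S‖ ≤ ‖R‖ := by
        rw [not_and, not_le] at hRS
        by_cases hS : S = 0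
        · exact ⟨fun hR => hd (by rw [hR, hS]; ring), by rw [hS, norm_zero]; exact norm_nonneg _⟩
        · exact ⟨fun hR => absurd (hRS hS)
            (by rw [hR, norm_zero]; exact not_lt.mpr (norm_nonneg _)),
            (hRS hS).le⟩
      obtain ⟨hR, hSR⟩ := hR
      have hk : -S / R ∈ Z := hmem.mpr (by
        rw [norm_div, norm_neg]; exact div_le_one_of_le₀ hSR (norm_nonneg _))
      have h1 := coeffIn_move h hk (one_mem Z) (one_mem Z) (zero_mem Z)
        (by simp)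
      rw [move_move] at h1
      have e : R * (-S / R) + S * 1 = 0 := by field_simp; ring
      rw [e] at h1
      simp only [mul_one, mul_zero, add_zero] at h1
      refine ⟨_, _, _, ?_, hR, h1⟩
      intro h0
      refine hd ?_
      have : (P * (-S / R) + Q) * R = 0 := by rw [h0, zero_mul]
      field_simp at this
      linear_combination -this
  have hp0 : (p : ℚ_[p]) ≠ 0 := by exact_mod_cast (Fact.out : p.Prime).ne_zero
  have hunit : ∀ {z : ℚ_[p]}, z ≠ 0 →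
      ‖(p : ℚ_[p]) ^ z.valuation / z‖ = 1 := by
    intro z hz
    rw [norm_div, norm_zpow, Padic.norm_p, Padic.norm_eq_zpow_neg_valuation hz, inv_zpow,
      ← zpow_neg]
    exact div_self (zpow_ne_zero _ (by exact_mod_cast (Fact.out : p.Prime).ne_zero))
  set a := P'.valuation
  set b := S'.valuation
  set u := (p : ℚ_[p]) ^ a / P'
  set v := (p : ℚ_[p]) ^ b / S'
  obtain ⟨c, hc, hclose⟩ := exists_close (Q' * v) a
  have hu : u ∈ Z := hmem.mpr (hunit hP').le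
  have hv : v ∈ Z := hmem.mpr (hunit hS').le
  have h2 := coeffIn_move hT hu (zero_mem Z) (zero_mem Z) hv (hmem.mpr (by
    rw [norm_inv]; simp [u, v, hunit hP', hunit hS', a, b]))
  rw [move_move] at h2
  have e1 : P' * u = (p : ℚ_[p]) ^ a := by simp only [u]; field_simp
  have e2 : S' * v = (p : ℚ_[p]) ^ b := by simp only [v]; field_simp
  simp only [mul_zero, zero_add, add_zero, zero_mul, e1, e2] at h2
  set x := ((c : ℚ_[p]) - Q' * v) / (p : ℚ_[p]) ^ a
  have hx : x ∈ Z := hmem.mpr (by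
    simp only [x]
    rw [norm_div]
    exact div_le_one_of_le₀ hclose (norm_nonneg _))
  have h3 := coeffIn_move h2 (one_mem Z) hx (zero_mem Z) (one_mem Z) (by simp)
  rw [move_move] at h3
  have e3 : (p : ℚ_[p]) ^ a * x + Q' * v * 1 = (c : ℚ_[p]) := by
    simp only [x]; field_simp; ring
  simp only [mul_zero, zero_add, add_zero, zero_mul, mul_one, e3] at h3
  rw [mul_one] at e3
  refine ⟨a, b, c, hc, ?_⟩
  have e4 : (f.move ((p : ℚ) ^ a) c 0 ((p : ℚ) ^ b)).map (Rat.castHom ℚ_[p]) =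
      F.move ((p : ℚ_[p]) ^ a) (c : ℚ_[p]) 0 ((p : ℚ_[p]) ^ b) := by
    rw [map_move]; simp [F]
  rw [e3] at h3
  rw [← e4] at h3
  exact h3

/-- Over `ℚ_p` a soluble form moves to an integral one. -/
theorem exists_local_integral {p : ℕ} [Fact p.Prime] {A B : ℤ}
    (hΔ : 4 * A ^ 3 + 27 * B ^ 2 ≠ 0) {f : BQ ℚ_[p]} (hI : f.invI = -48 * (A : ℚ_[p]))
    (hJ : f.invJ = -1728 * (B : ℚ_[p])) (hs : f.Soluble) :
    ∃ g : BQ ℚ_[p], f.Eqv g ∧ CoeffIn (PadicInt.subring p) g := by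
  set Z := PadicInt.subring p
  have hmem : ∀ {z : ℚ_[p]}, z ∈ Z ↔ ‖z‖ ≤ 1 := Iff.rfl
  have hint : ∀ n : ℤ, (n : ℚ_[p]) ∈ Z := fun n => intCast_mem Z n
  have h3 : (3 : ℚ_[p]) ∈ Z := by exact_mod_cast hint 3
  have h4 : (4 : ℚ_[p]) ∈ Z := by exact_mod_cast hint 4
  have h6 : (6 : ℚ_[p]) ∈ Z := by exact_mod_cast hint 6
  have h8 : (8 : ℚ_[p]) ∈ Z := by exact_mod_cast hint 8
  rcases hs.normal hI hJ (by exact_mod_cast hΔ) with h | ⟨x, y, hxy, h⟩
  · exact ⟨_, h, zero_mem Z, h4, zero_mem Z, mul_mem h4 (hint A), mul_mem h4 (hint B)⟩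
  by_cases hx : ‖x‖ ≤ 1
  · have hx' : x ∈ Z := hmem.mpr hx
    have hy' : y ∈ Z := by
      have : y ^ 2 ∈ Z := hxy ▸ add_mem (add_mem (pow_mem hx' 3) (mul_mem (hint A) hx')) (hint B)
      refine hmem.mpr ?_
      have h2 := hmem.mp this
      rw [norm_pow] at h2
      exact (sq_le_one_iff₀ (norm_nonneg y)).mp h2
    refine ⟨_, h, one_mem Z, zero_mem Z, ?_, mul_mem h8 hy', ?_⟩
    · exact mul_mem (neg_mem h6) hx'
    · exact sub_mem (mul_mem (neg_mem h4) (hint A)) (mul_mem h3 (pow_mem hx' 2))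
  rw [not_le] at hx
  have hx0 : x ≠ 0 := fun h0 => by rw [h0, norm_zero] at hx; linarith
  have hix : x⁻¹ ∈ Z := hmem.mpr (by rw [norm_inv]; exact inv_le_one_of_one_le₀ hx.le)
  set w := (A : ℚ_[p]) * x⁻¹ + (B : ℚ_[p]) * x⁻¹ ^ 2 with hw
  have hwZ : w ∈ Z := add_mem (mul_mem (hint A) hix) (mul_mem (hint B) (pow_mem hix 2))
  have hy2 : y ^ 2 = x ^ 2 * (x + w) := by rw [hxy, hw]; field_simp; ring
  have hxw : ‖x + w‖ = ‖x‖ := by
    have hlt : ‖w‖ < ‖x‖ := lt_of_le_of_lt (hmem.mp hwZ) hx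
    rw [Padic.add_eq_max_of_ne hlt.ne', max_eq_left hlt.le]
  have hxw0 : x + w ≠ 0 := fun h0 => by rw [h0, norm_zero] at hxw; linarith
  have hy0 : y ≠ 0 := fun h0 => by
    rw [h0, zero_pow two_ne_zero] at hy2
    exact mul_ne_zero (pow_ne_zero 2 hx0) hxw0 hy2.symm
  set D := x / y
  have hD0 : D ≠ 0 := div_ne_zero hx0 hy0
  have hD2 : D ^ 2 = (x + w)⁻¹ := by
    simp only [D]; rw [div_pow, hy2]; field_simp
  set g := (pointBQ (A : ℚ_[p]) x y).move D (y / x) 0 1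
  refine ⟨g, eqv_trans h ⟨D, y / x, 0, 1, by simpa using hD0, rfl⟩, ?_⟩
  have ga : g.a = D ^ 2 := by
    simp [g, D, move, scale, act, eval, pointBQ]; field_simp
  have gb : g.b = 4 := by
    simp [g, D, move, scale, act, pointBQ]; field_simp
  have gc : g.c = 6 * w := by
    simp [g, D, move, scale, act, pointBQ]
    field_simp
    linear_combination hy2
  have gd : g.d = 4 * ((A : ℚ_[p]) + B * x⁻¹ + w ^ 2) := by
    have e : (A : ℚ_[p]) + B * x⁻¹ = x * w := by rw [hw]; field_simp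
    rw [e]
    simp [g, D, move, scale, act, pointBQ]
    field_simp
    linear_combination (4 * (y ^ 2 + x ^ 2 * (x + w)) - 4 * x ^ 3) * hy2
  have ge : g.e = w * ((A : ℚ_[p]) + B * x⁻¹) + 4 * B + w ^ 3 + 4 * B * x⁻¹ * w := by
    have e : (A : ℚ_[p]) + B * x⁻¹ = x * w := by rw [hw]; field_simp
    have eB : (B : ℚ_[p]) = x ^ 2 * w - A * x := by rw [hw]; field_simp; ring
    rw [e]
    simp [g, D, move, scale, act, eval, pointBQ]
    field_simp
    rw [eB]
    grobner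
  refine ⟨ga ▸ hmem.mpr ?_, gb ▸ h4, gc ▸ mul_mem h6 hwZ, gd ▸ ?_, ge ▸ ?_⟩
  · rw [hD2, norm_inv, hxw]; exact inv_le_one_of_one_le₀ hx.le
  · exact mul_mem h4 (add_mem (add_mem (hint A) (mul_mem (hint B) hix)) (pow_mem hwZ 2))
  · exact add_mem (add_mem (add_mem (mul_mem hwZ (add_mem (hint A) (mul_mem (hint B) hix)))
      (mul_mem h4 (hint B))) (pow_mem hwZ 3)) (mul_mem (mul_mem (mul_mem h4 (hint B)) hix) hwZ)

/-- Everywhere locally soluble with the invariants of `(A, B)`. -/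
def IsSelmerForm (A B : ℤ) (f : BQ ℚ) : Prop :=
  f.invI = -48 * (A : ℚ) ∧ f.invJ = -1728 * (B : ℚ) ∧ (f.map (Rat.castHom ℝ)).Soluble ∧
    ∀ (p : ℕ) [Fact p.Prime], (f.map (Rat.castHom ℚ_[p])).Soluble

theorem IsSelmerForm.of_eqv {A B : ℤ} {f g : BQ ℚ} (h : IsSelmerForm A B f) (e : f.Eqv g) :
    IsSelmerForm A B g :=
  ⟨e.invI_eq.trans h.1, e.invJ_eq.trans h.2.1, h.2.2.1.of_eqv (eqv_symm (e.map _)),
    fun p _ => (h.2.2.2 p).of_eqv (eqv_symm (e.map _))⟩

/-- Integral at all primes outside `T`. -/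
def IntegralOutside (T : Finset ℕ) (f : BQ ℚ) : Prop :=
  ∀ (q : ℕ) [Fact q.Prime], q ∉ T → CoeffIn (qInt q) f

theorem exists_integral_step {A B : ℤ} (hΔ : 4 * A ^ 3 + 27 * B ^ 2 ≠ 0) (T : Finset ℕ) :
    ∀ f : BQ ℚ, IsSelmerForm A B f → IntegralOutside T f →
      ∃ g : BQ ℚ, f.Eqv g ∧ IntegralOutside ∅ g := by
  induction T using Finset.induction_on with
  | empty => exact fun f _ h => ⟨f, eqv_refl f, h⟩
  | insert p T hpT ih =>
    intro f hf hout
    by_cases hp : p.Prime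
    swap
    · exact ih f hf fun q _ hq => hout q (by
        simp only [Finset.mem_insert, not_or]
        exact ⟨fun e => hp (e ▸ Fact.out), hq⟩)
    haveI := Fact.mk hp
    obtain ⟨g, ⟨P, Q, R, S, hd, rfl⟩, hg⟩ := exists_local_integral (p := p) hΔ
      (f := f.map (Rat.castHom ℚ_[p])) (by rw [map_invI, hf.1]; simp)
      (by rw [map_invJ, hf.2.1]; simp) (hf.2.2.2 p)
    obtain ⟨a, b, c, hc, hint⟩ := exists_triangular f hd hg
    have hp0 : (p : ℚ) ≠ 0 := by exact_mod_cast hp.ne_zero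
    set f' := f.move ((p : ℚ) ^ a) c 0 ((p : ℚ) ^ b)
    have hff' : f.Eqv f' := ⟨_, _, _, _, by
      rw [mul_zero, sub_zero]; exact mul_ne_zero (zpow_ne_zero _ hp0) (zpow_ne_zero _ hp0), rfl⟩
    obtain ⟨g, hg1, hg2⟩ := ih f' (hf.of_eqv hff') fun q _ hq => by
      by_cases hqp : q = p
      · subst hqp; exact hint
      have hpow : ∀ n : ℤ, (p : ℚ) ^ n ∈ qInt q := fun n => mem_qInt.mpr (by
        push_cast
        rw [norm_zpow]
        have h1 : ‖((p : ℤ) : ℚ_[q])‖ = 1 := le_antisymm (Padic.norm_int_le_one _)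
          (not_lt.mp fun hlt => hqp ((Nat.prime_dvd_prime_iff_eq Fact.out hp).mp
            (Int.natCast_dvd_natCast.mp ((Padic.norm_intCast_lt_one_iff).mp hlt))))
        push_cast at h1
        rw [h1, one_zpow])
      exact coeffIn_move (hout q (by simp [hq, hqp])) (hpow a) (hc q hqp) (zero_mem _) (hpow b)
        (by rw [mul_zero, sub_zero, mul_inv, ← zpow_neg, ← zpow_neg]
            exact mul_mem (hpow _) (hpow _))
    exact ⟨g, eqv_trans hff' hg1, hg2⟩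

/-- A rational form with integer coefficients. -/
def ofInt (G : QuarticForm) : BQ ℚ := ⟨G.a, G.b, G.c, G.d, G.e⟩

/-- **An integral form in every locally soluble class.** -/
theorem exists_integral {A B : ℤ} (hΔ : 4 * A ^ 3 + 27 * B ^ 2 ≠ 0) {f : BQ ℚ}
    (hf : IsSelmerForm A B f) :
    ∃ G : QuarticForm, f.Eqv (ofInt G) ∧ G.invI = -48 * A ∧ G.invJ = -1728 * B := by
  set N := f.a.den * f.b.den * f.c.den * f.d.den * f.e.den
  have hN : N ≠ 0 := by simp [N, Rat.den_ne_zero]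
  obtain ⟨g, hfg, hg⟩ := exists_integral_step hΔ N.primeFactors f hf fun q _ hq => by
    have hnd : ¬ q ∣ N := fun h => hq (Nat.mem_primeFactors.mpr ⟨Fact.out, h, hN⟩)
    have key : ∀ x : ℚ, x.den ∣ N → x ∈ qInt q := fun x hx =>
      qInt_of_not_dvd fun h => hnd (h.trans hx)
    refine ⟨key _ ?_, key _ ?_, key _ ?_, key _ ?_, key _ ?_⟩ <;> simp only [N]
    · exact Dvd.intro (f.b.den * f.c.den * f.d.den * f.e.den) (by ring)
    · exact Dvd.intro (f.a.den * f.c.den * f.d.den * f.e.den) (by ring)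
    · exact Dvd.intro (f.a.den * f.b.den * f.d.den * f.e.den) (by ring)
    · exact Dvd.intro (f.a.den * f.b.den * f.c.den * f.e.den) (by ring)
    · exact Dvd.intro (f.a.den * f.b.den * f.c.den * f.d.den) (by ring)
  have hden : ∀ x : ℚ, (∀ (q : ℕ) [Fact q.Prime], x ∈ qInt q) → ∃ n : ℤ, (n : ℚ) = x := by
    intro x hx
    refine ⟨x.num, Rat.den_eq_one_iff x |>.mp ?_⟩
    by_contra h1
    obtain ⟨q, hq, hqd⟩ := Nat.exists_prime_and_dvd h1
    haveI := Fact.mk hq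
    exact not_dvd_of_qInt (hx q) hqd
  obtain ⟨a, ha⟩ := hden g.a fun q _ => (hg q (Finset.notMem_empty q)).1
  obtain ⟨b, hb⟩ := hden g.b fun q _ => (hg q (Finset.notMem_empty q)).2.1
  obtain ⟨c, hc⟩ := hden g.c fun q _ => (hg q (Finset.notMem_empty q)).2.2.1
  obtain ⟨d, hd⟩ := hden g.d fun q _ => (hg q (Finset.notMem_empty q)).2.2.2.1
  obtain ⟨e, he⟩ := hden g.e fun q _ => (hg q (Finset.notMem_empty q)).2.2.2.2
  have hG : g = ofInt ⟨a, b, c, d, e⟩ := BQ.ext ha.symm hb.symm hc.symm hd.symm he.symm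
  have h' := hf.of_eqv hfg
  refine ⟨⟨a, b, c, d, e⟩, hG ▸ hfg, ?_, ?_⟩
  · have h1 := h'.1
    rw [hG] at h1
    simp only [BQ.invI, ofInt] at h1
    simp only [QuarticForm.invI]
    exact_mod_cast h1
  · have h1 := h'.2.1
    rw [hG] at h1
    simp only [BQ.invJ, ofInt] at h1
    simp only [QuarticForm.invJ]
    exact_mod_cast h1

end FA.SelmerAverage
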