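import Fermat.Agent.SiegelPoints.Quartic
import Mathlib.Algebra.CharZero.Defs

/-!
# Binary quartic forms over a field

`GL₂` acts by `f ↦ det⁻² f ∘ g`, which keeps `I` and `J`. A form with a zero is equivalent to the
trivial form `4 (X³ Y + A X Y³ + B Y⁴)`, a form with a square value `z² ≠ 0` to the form of a point.
-/

set_option autoImplicit false

noncomputable section

namespace FA.SelmerAverage

/-- The binary quartic form `a X⁴ + b X³ Y + c X² Y² + d X Y³ + e Y⁴`. -/
@[ext] structure BQ (R : Type*) where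
  /-- The coefficient of `X⁴`. -/
  a : R
  /-- The coefficient of `X³ Y`. -/
  b : R
  /-- The coefficient of `X² Y²`. -/
  c : R
  /-- The coefficient of `X Y³`. -/
  d : R
  /-- The coefficient of `Y⁴`. -/
  e : R

namespace BQ

section Ring

variable {R S : Type*} [CommRing R] [CommRing S] (f : BQ R)

/-- The value. -/
def eval (X Y : R) : R :=
  f.a * X ^ 4 + f.b * X ^ 3 * Y + f.c * X ^ 2 * Y ^ 2 + f.d * X * Y ^ 3 + f.e * Y ^ 4

/-- The invariant of degree two. -/
def invI : R := 12 * f.a * f.e - 3 * f.b * f.d + f.c ^ 2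

/-- The invariant of degree three. -/
def invJ : R :=
  72 * f.a * f.c * f.e + 9 * f.b * f.c * f.d - 27 * f.a * f.d ^ 2 - 27 * f.e * f.b ^ 2 -
    2 * f.c ^ 3

/-- The Hessian covariant. -/
def hess (X Y : R) : R :=
  (3 * f.b ^ 2 - 8 * f.a * f.c) * X ^ 4 + 4 * (f.b * f.c - 6 * f.a * f.d) * X ^ 3 * Y +
    2 * (2 * f.c ^ 2 - 24 * f.a * f.e - 3 * f.b * f.d) * X ^ 2 * Y ^ 2 +
    4 * (f.c * f.d - 6 * f.b * f.e) * X * Y ^ 3 + (3 * f.d ^ 2 - 8 * f.c * f.e) * Y ^ 4

/-- The substitution. -/
def act (p q r s : R) : BQ R where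
  a := f.eval p r
  b := 4 * f.a * p ^ 3 * q + f.b * (p ^ 3 * s + 3 * p ^ 2 * q * r) +
    f.c * (2 * p ^ 2 * r * s + 2 * p * q * r ^ 2) + f.d * (3 * p * r ^ 2 * s + q * r ^ 3) +
    4 * f.e * r ^ 3 * s
  c := 6 * f.a * p ^ 2 * q ^ 2 + f.b * (3 * p ^ 2 * q * s + 3 * p * q ^ 2 * r) +
    f.c * (p ^ 2 * s ^ 2 + 4 * p * q * r * s + q ^ 2 * r ^ 2) +
    f.d * (3 * p * r * s ^ 2 + 3 * q * r ^ 2 * s) + 6 * f.e * r ^ 2 * s ^ 2
  d := 4 * f.a * p * q ^ 3 + f.b * (q ^ 3 * r + 3 * p * q ^ 2 * s) +
    f.c * (2 * p * q * s ^ 2 + 2 * q ^ 2 * r * s) + f.d * (p * s ^ 3 + 3 * q * r * s ^ 2) +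
    4 * f.e * r * s ^ 3
  e := f.eval q s

/-- A multiple. -/
def scale (k : R) : BQ R := ⟨k * f.a, k * f.b, k * f.c, k * f.d, k * f.e⟩

/-- The image under a ring map. -/
def map (φ : R →+* S) : BQ S := ⟨φ f.a, φ f.b, φ f.c, φ f.d, φ f.e⟩

theorem eval_act (p q r s X Y : R) :
    (f.act p q r s).eval X Y = f.eval (p * X + q * Y) (r * X + s * Y) := by
  simp only [eval, act]; ring

theorem eval_scale (k X Y : R) : (f.scale k).eval X Y = k * f.eval X Y := by
  simp only [eval, scale]; ring

theorem hess_act (p q r s X Y : R) : (f.act p q r s).hess X Y =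
    (p * s - q * r) ^ 2 * f.hess (p * X + q * Y) (r * X + s * Y) := by
  simp only [hess, eval, act]; ring

theorem hess_scale (k X Y : R) : (f.scale k).hess X Y = k ^ 2 * f.hess X Y := by
  simp only [hess, scale]; ring

theorem invI_act (p q r s : R) : (f.act p q r s).invI = (p * s - q * r) ^ 4 * f.invI := by
  simp only [invI, eval, act]; ring

theorem invJ_act (p q r s : R) : (f.act p q r s).invJ = (p * s - q * r) ^ 6 * f.invJ := by
  simp only [invJ, eval, act]; ring

theorem invI_scale (k : R) : (f.scale k).invI = k ^ 2 * f.invI := by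
  simp only [invI, scale]; ring

theorem invJ_scale (k : R) : (f.scale k).invJ = k ^ 3 * f.invJ := by
  simp only [invJ, scale]; ring

theorem act_scale (k p q r s : R) : (f.scale k).act p q r s = (f.act p q r s).scale k := by
  ext <;> simp only [act, scale, eval] <;> ring

theorem act_act (p q r s p' q' r' s' : R) :
    (f.act p q r s).act p' q' r' s' =
      f.act (p * p' + q * r') (p * q' + q * s') (r * p' + s * r') (r * q' + s * s') := by
  ext <;> simp only [act, eval] <;> ring

theorem scale_scale (k l : R) : (f.scale k).scale l = f.scale (l * k) := by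
  ext <;> simp only [scale] <;> ring

theorem act_one : f.act 1 0 0 1 = f := by ext <;> simp [act, eval]

theorem scale_one : f.scale 1 = f := by ext <;> simp [scale]

theorem map_act (φ : R →+* S) (p q r s : R) :
    (f.act p q r s).map φ = (f.map φ).act (φ p) (φ q) (φ r) (φ s) := by
  ext <;> simp [act, map, eval, map_ofNat]

theorem map_scale (φ : R →+* S) (k : R) : (f.scale k).map φ = (f.map φ).scale (φ k) := by
  ext <;> simp [scale, map]

theorem map_invI (φ : R →+* S) : (f.map φ).invI = φ f.invI := by simp [invI, map, map_ofNat]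

theorem map_invJ (φ : R →+* S) : (f.map φ).invJ = φ f.invJ := by simp [invJ, map, map_ofNat]

theorem map_eval (φ : R →+* S) (X Y : R) : (f.map φ).eval (φ X) (φ Y) = φ (f.eval X Y) := by
  simp [eval, map]

theorem map_map {T : Type*} [CommRing T] (φ : R →+* S) (ψ : S →+* T) :
    (f.map φ).map ψ = f.map (ψ.comp φ) := rfl

end Ring

section Field

variable {K L : Type*} [Field K] [Field L] (f : BQ K)

/-- The twisted action. -/
def move (p q r s : K) : BQ K := (f.act p q r s).scale ((p * s - q * r) ^ 2)⁻¹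

theorem move_one : f.move 1 0 0 1 = f := by simp [move, act_one, scale_one]

theorem move_move (p q r s p' q' r' s' : K) :
    (f.move p q r s).move p' q' r' s' =
      f.move (p * p' + q * r') (p * q' + q * s') (r * p' + s * r') (r * q' + s * s') := by
  simp only [move, act_scale, act_act, scale_scale]
  congr 1
  rw [show (p * p' + q * r') * (r * q' + s * s') - (p * q' + q * s') * (r * p' + s * r') =
    (p' * s' - q' * r') * (p * s - q * r) by ring, mul_pow, mul_inv]

theorem map_move (φ : K →+* L) (p q r s : K) :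
    (f.move p q r s).map φ = (f.map φ).move (φ p) (φ q) (φ r) (φ s) := by
  simp [move, map_scale, map_act]

theorem invI_move {p q r s : K} (h : p * s - q * r ≠ 0) : (f.move p q r s).invI = f.invI := by
  simp only [move, invI_scale, invI_act]
  rw [← mul_assoc, show (((p * s - q * r) ^ 2)⁻¹) ^ 2 * (p * s - q * r) ^ 4 = 1 by field_simp,
    one_mul]

theorem invJ_move {p q r s : K} (h : p * s - q * r ≠ 0) : (f.move p q r s).invJ = f.invJ := by
  simp only [move, invJ_scale, invJ_act]
  rw [← mul_assoc, show (((p * s - q * r) ^ 2)⁻¹) ^ 3 * (p * s - q * r) ^ 6 = 1 by field_simp,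
    one_mul]

/-- Equivalence under the twisted action of `GL₂`. -/
def Eqv (g : BQ K) : Prop := ∃ p q r s : K, p * s - q * r ≠ 0 ∧ f.move p q r s = g

variable {f}

theorem eqv_refl (f : BQ K) : f.Eqv f := ⟨1, 0, 0, 1, by simp, f.move_one⟩

theorem eqv_trans {g h : BQ K} (h1 : f.Eqv g) (h2 : g.Eqv h) : f.Eqv h := by
  obtain ⟨p, q, r, s, hd, rfl⟩ := h1
  obtain ⟨p', q', r', s', hd', rfl⟩ := h2
  refine ⟨_, _, _, _, ?_, (f.move_move p q r s p' q' r' s').symm⟩
  rw [show (p * p' + q * r') * (r * q' + s * s') - (p * q' + q * s') * (r * p' + s * r') =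
    (p' * s' - q' * r') * (p * s - q * r) by ring]
  exact mul_ne_zero hd' hd

theorem eqv_symm {g : BQ K} (h : f.Eqv g) : g.Eqv f := by
  obtain ⟨p, q, r, s, hd, rfl⟩ := h
  set D := p * s - q * r with hD
  refine ⟨s / D, -q / D, -r / D, p / D, ?_, ?_⟩
  · have : s / D * (p / D) - -q / D * (-r / D) = D⁻¹ := by
      rw [hD]; field_simp
    rw [this]
    exact inv_ne_zero hd
  · rw [move_move]
    have e1 : p * (s / D) + q * (-r / D) = 1 := by field_simp; linear_combination -hD
    have e2 : p * (-q / D) + q * (p / D) = 0 := by field_simp; ring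
    have e3 : r * (s / D) + s * (-r / D) = 0 := by field_simp; ring
    have e4 : r * (-q / D) + s * (p / D) = 1 := by field_simp; linear_combination -hD
    rw [e1, e2, e3, e4, move_one]

theorem Eqv.invI_eq {g : BQ K} (h : f.Eqv g) : g.invI = f.invI := by
  obtain ⟨p, q, r, s, hd, rfl⟩ := h
  exact f.invI_move hd

theorem Eqv.invJ_eq {g : BQ K} (h : f.Eqv g) : g.invJ = f.invJ := by
  obtain ⟨p, q, r, s, hd, rfl⟩ := h
  exact f.invJ_move hd

theorem Eqv.map {g : BQ K} (h : f.Eqv g) (φ : K →+* L) : (f.map φ).Eqv (g.map φ) := by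
  obtain ⟨p, q, r, s, hd, rfl⟩ := h
  refine ⟨φ p, φ q, φ r, φ s, ?_, (f.map_move φ p q r s).symm⟩
  rw [← map_mul, ← map_mul, ← map_sub]
  exact (map_ne_zero φ).mpr hd

variable (f)

/-- `z² = f` has a point. -/
def Soluble : Prop := ∃ u w z : K, (u ≠ 0 ∨ w ≠ 0) ∧ z ^ 2 = f.eval u w

variable {f}

/-- The trivial form. -/
def trivialForm (A B : K) : BQ K := ⟨0, 4, 0, 4 * A, 4 * B⟩

/-- The form of the point `(x, y)`. -/
def pointBQ (A x y : K) : BQ K := ⟨1, 0, -6 * x, 8 * y, -4 * A - 3 * x ^ 2⟩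

theorem eqv_pointBQ_neg (A x y : K) : (pointBQ A x y).Eqv (pointBQ A x (-y)) := by
  refine ⟨1, 0, 0, -1, by simp, ?_⟩
  ext <;> simp [move, scale, act, pointBQ, eval] <;> ring

variable [CharZero K]

omit [CharZero K] in
theorem trivialForm_inv (A B : K) :
    (trivialForm A B).invI = -48 * A ∧ (trivialForm A B).invJ = -1728 * B := by
  constructor <;> simp only [invI, invJ, trivialForm] <;> ring

omit [CharZero K] in
theorem pointBQ_inv {A B x y : K} (h : y ^ 2 = x ^ 3 + A * x + B) :
    (pointBQ A x y).invI = -48 * A ∧ (pointBQ A x y).invJ = -1728 * B := by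
  constructor <;> simp only [invI, invJ, pointBQ]
  · ring
  · linear_combination -1728 * h

/-- A zero: the trivial form. -/
theorem eqv_trivialForm {A B : K} (hI : f.invI = -48 * A) (hJ : f.invJ = -1728 * B)
    (hΔ : 4 * A ^ 3 + 27 * B ^ 2 ≠ 0) {u w : K} (huw : u ≠ 0 ∨ w ≠ 0) (h0 : f.eval u w = 0) :
    f.Eqv (trivialForm A B) := by
  obtain ⟨q, s, hd⟩ : ∃ q s : K, u * s - q * w ≠ 0 := by
    rcases huw with h | h
    · exact ⟨0, 1, by simpa using h⟩
    · exact ⟨1, 0, by simpa using h⟩
  set g := f.move u q w s with hg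
  have hfg : f.Eqv g := ⟨u, q, w, s, hd, rfl⟩
  have ha : g.a = 0 := by simp [hg, move, scale, act, h0]
  have hgI := hfg.invI_eq.trans hI
  have hgJ := hfg.invJ_eq.trans hJ
  have hb : g.b ≠ 0 := fun hb => hΔ (by
    simp only [invI, ha, hb] at hgI
    simp only [invJ, ha, hb] at hgJ
    refine mul_left_cancel₀ (show (-110592 : K) ≠ 0 by norm_num) ?_
    rw [mul_zero]
    linear_combination -4 * ((g.c ^ 2) ^ 2 + g.c ^ 2 * (-48 * A) + (-48 * A) ^ 2) * hgI +
      (-2 * g.c ^ 3 + -1728 * B) * hgJ)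
  set m := g.move (4 / g.b) 0 0 1 with hm
  have hgm : g.Eqv m := ⟨_, _, _, _, by simpa using hb, rfl⟩
  have hma : m.a = 0 := by simp [hm, move, scale, act, eval, ha]
  have hmb : m.b = 4 := by simp [hm, move, scale, act, ha]; field_simp
  set n := m.move 1 (-m.c / 12) 0 1 with hn
  have hmn : m.Eqv n := ⟨_, _, _, _, by simp, rfl⟩
  have hna : n.a = 0 := by simp [hn, move, scale, act, eval, hma]
  have hnb : n.b = 4 := by simp [hn, move, scale, act, hma, hmb]
  have hnc : n.c = 0 := by simp [hn, move, scale, act, hma, hmb]; ring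
  have hfn := eqv_trans (eqv_trans hfg hgm) hmn
  have hnI := hfn.invI_eq.trans hI
  have hnJ := hfn.invJ_eq.trans hJ
  simp only [invI, hna, hnb, hnc] at hnI
  simp only [invJ, hna, hnb, hnc] at hnJ
  have hnd : n.d = 4 * A := by
    refine mul_left_cancel₀ (show (-12 : K) ≠ 0 by norm_num) ?_
    linear_combination hnI
  have hne : n.e = 4 * B := by
    refine mul_left_cancel₀ (show (-432 : K) ≠ 0 by norm_num) ?_
    linear_combination hnJ
  rwa [show n = trivialForm A B from BQ.ext hna hnb hnc hnd hne] at hfn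

/-- A square value: the form of a point, whose abscissa is read off the Hessian. -/
theorem eqv_pointBQ {A B : K} (hI : f.invI = -48 * A) (hJ : f.invJ = -1728 * B) {u w z : K}
    (hz : z ≠ 0) (he : z ^ 2 = f.eval u w) :
    ∃ x y : K, y ^ 2 = x ^ 3 + A * x + B ∧ 48 * x * z ^ 2 = f.hess u w ∧
      f.Eqv (pointBQ A x y) := by
  obtain ⟨q, s, hd⟩ : ∃ q s : K, u * s - q * w = z := by
    by_cases hu : u = 0
    · have hw : w ≠ 0 := fun hw => hz (by
        rw [hu, hw] at he
        simpa [eval] using he)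
      exact ⟨-z / w, 0, by field_simp; ring⟩
    · exact ⟨0, z / u, by field_simp; ring⟩
  set g := f.move u q w s with hg
  have hfg : f.Eqv g := ⟨u, q, w, s, by rw [hd]; exact hz, rfl⟩
  have ha : g.a = 1 := by
    simp only [hg, move, scale, act, hd, ← he]
    field_simp
  set n := g.move 1 (-g.b / 4) 0 1 with hn
  have hgn : g.Eqv n := ⟨_, _, _, _, by simp, rfl⟩
  have hna : n.a = 1 := by simp [hn, move, scale, act, eval, ha]
  have hnb : n.b = 0 := by simp [hn, move, scale, act, ha]; ring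
  have hfn := eqv_trans hfg hgn
  have hnI := hfn.invI_eq.trans hI
  have hnJ := hfn.invJ_eq.trans hJ
  simp only [invI, hna, hnb] at hnI
  simp only [invJ, hna, hnb] at hnJ
  set x := -n.c / 6 with hx
  set y := n.d / 8 with hy
  have hne : n.e = -4 * A - 3 * x ^ 2 := by
    refine mul_left_cancel₀ (show (12 : K) ≠ 0 by norm_num) ?_
    rw [hx]
    linear_combination hnI
  refine ⟨x, y, ?_, ?_, ?_⟩
  · refine mul_left_cancel₀ (show (-1728 : K) ≠ 0 by norm_num) ?_
    rw [hne] at hnJ
    rw [hx, hy] at *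
    linear_combination hnJ
  · have h1 : n.hess 1 0 = g.hess 1 0 := by
      simp only [hn, move, hess_scale, hess_act]
      norm_num
    have h2 : n.hess 1 0 = 48 * x := by simp [hess, hna, hnb, hx]; ring
    have h3 : g.hess 1 0 = (z ^ 2)⁻¹ * f.hess u w := by
      simp only [hg, move, hess_scale, hess_act, hd]
      simp only [mul_one, mul_zero, add_zero]
      field_simp
    rw [← h2, h1, h3]
    field_simp
  · rwa [show n = pointBQ A x y from BQ.ext hna hnb (by simp only [pointBQ, hx]; ring)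
      (by simp only [pointBQ, hy]; ring) hne] at hfn

/-- A soluble form is equivalent to the trivial form or to that of a point. -/
theorem Soluble.normal {A B : K} (h : f.Soluble) (hI : f.invI = -48 * A)
    (hJ : f.invJ = -1728 * B) (hΔ : 4 * A ^ 3 + 27 * B ^ 2 ≠ 0) :
    f.Eqv (trivialForm A B) ∨
      ∃ x y : K, y ^ 2 = x ^ 3 + A * x + B ∧ f.Eqv (pointBQ A x y) := by
  obtain ⟨u, w, z, huw, he⟩ := h
  by_cases hz : z = 0
  · rw [hz, zero_pow two_ne_zero] at he
    exact Or.inl (eqv_trivialForm hI hJ hΔ huw he.symm)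
  · obtain ⟨x, y, h1, -, h2⟩ := eqv_pointBQ hI hJ hz he
    exact Or.inr ⟨x, y, h1, h2⟩

theorem soluble_pointBQ (A x y : K) : (pointBQ A x y).Soluble :=
  ⟨1, 0, 1, Or.inl one_ne_zero, by simp [eval, pointBQ]⟩

theorem soluble_trivialForm (A B : K) : (trivialForm A B).Soluble :=
  ⟨1, 0, 0, Or.inl one_ne_zero, by simp [eval, trivialForm]⟩

omit [CharZero K] in
theorem Soluble.of_eqv {g : BQ K} (hg : g.Soluble) (h : f.Eqv g) : f.Soluble := by
  obtain ⟨p, q, r, s, hd, rfl⟩ := h
  obtain ⟨u, w, z, huw, he⟩ := hg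
  simp only [move, eval_scale, eval_act] at he
  refine ⟨p * u + q * w, r * u + s * w, z * (p * s - q * r), ?_, ?_⟩
  · by_contra h
    rw [not_or, not_ne_iff, not_ne_iff] at h
    have h1 : (p * s - q * r) * u = 0 := by linear_combination s * h.1 - q * h.2
    have h2 : (p * s - q * r) * w = 0 := by linear_combination p * h.2 - r * h.1
    rcases huw with e | e
    · exact e ((mul_eq_zero.mp h1).resolve_left hd)
    · exact e ((mul_eq_zero.mp h2).resolve_left hd)
  · rw [mul_pow, he, mul_comm ((((p * s - q * r) ^ 2))⁻¹), mul_assoc,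
      inv_mul_cancel₀ (pow_ne_zero 2 hd), mul_one]

end Field

end BQ

end FA.SelmerAverage
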