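import Fermat.Agent.AverageRank.Descent
import Fermat.Agent.SelmerAverage.Forms

/-!
# Rational points and quartic classes

The classes of rational points modulo doubles correspond to the classes of soluble forms: a point of
`z² = g_P` over `(t, 1)` cuts out `R`, `R'` with `R + R' = -P` and maps to `R - R'`.
-/

set_option autoImplicit false

noncomputable section

open WeierstrassCurve
open FA.AverageRank (shortCurve shortCurve_equation shortCurve_Δ doubles mem_doubles_of_tangent)

namespace FA.SelmerAverage

open BQ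

/-- The class of a form. -/
def formClass (f : BQ ℚ) : Set (BQ ℚ) := {g | f.Eqv g}

theorem formClass_eq {f g : BQ ℚ} (h : f.Eqv g) : formClass f = formClass g :=
  Set.ext fun _ => ⟨fun h' => eqv_trans (eqv_symm h) h', fun h' => eqv_trans h h'⟩

theorem eqv_of_formClass_eq {f g : BQ ℚ} (h : formClass f = formClass g) : f.Eqv g :=
  show g ∈ formClass f from h ▸ eqv_refl g

variable {A B : ℚ}

/-- The class of a point. -/
def pointClass : (shortCurve A B).toAffine.Point → Set (BQ ℚ)
  | .zero => formClass (trivialForm A B)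
  | .some x y _ => formClass (pointBQ A x y)

theorem pointClass_neg (P : (shortCurve A B).toAffine.Point) : pointClass (-P) = pointClass P := by
  rcases P with _ | ⟨x, y, h⟩
  · rfl
  · rw [Affine.Point.neg_some]
    show formClass (pointBQ A x ((shortCurve A B).toAffine.negY x y)) = formClass (pointBQ A x y)
    rw [show (shortCurve A B).toAffine.negY x y = -y by simp [Affine.negY]]
    exact (formClass_eq (eqv_pointBQ_neg A x y)).symm

variable (hΔ : 4 * A ^ 3 + 27 * B ^ 2 ≠ 0)

include hΔ in
theorem nonsingular_of_eq {x y : ℚ} (h : y ^ 2 = x ^ 3 + A * x + B) :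
    (shortCurve A B).toAffine.Nonsingular x y :=
  (shortCurve A B).toAffine.equation_iff_nonsingular_of_Δ_ne_zero
    (by rw [shortCurve_Δ]; exact mul_ne_zero (by norm_num) hΔ) |>.mp (shortCurve_equation.mpr h)

include hΔ in
/-- A point of `z² = g_P` gives a point of the coset of `P`. -/
theorem exists_coset_point {x y : ℚ} (hP : (shortCurve A B).toAffine.Nonsingular x y) {t z : ℚ}
    (hz : z ≠ 0) (he : z ^ 2 = (pointBQ A x y).eval t 1) :
    ∃ (a' b' : ℚ) (hR' : (shortCurve A B).toAffine.Nonsingular a' b') (X Y : ℚ)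
      (hX : (shortCurve A B).toAffine.Nonsingular X Y),
      a' = (t ^ 2 - x - z) / 2 ∧ b' = t * (a' - x) + y ∧
      Affine.Point.some X Y hX = -Affine.Point.some x y hP - 2 • Affine.Point.some a' b' hR' ∧
      48 * X * z ^ 2 = (pointBQ A x y).hess t 1 := by
  set k := (t ^ 2 - x) / 2 with hk
  set a := k + z / 2 with ha
  set a' := k - z / 2 with ha'
  set b := t * (a - x) + y with hb
  set b' := t * (a' - x) + y with hb'
  have e := shortCurve_equation.mp hP.1
  simp only [BQ.eval, pointBQ] at he
  have hR : (shortCurve A B).toAffine.Nonsingular a b := nonsingular_of_eq hΔ (by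
    rw [hb, ha, hk]
    linear_combination e + (z / 8 + (t ^ 2 - 3 * x) / 8) * he * -1)
  have hR' : (shortCurve A B).toAffine.Nonsingular a' b' := nonsingular_of_eq hΔ (by
    rw [hb', ha', hk]
    linear_combination e + (-z / 8 + (t ^ 2 - 3 * x) / 8) * he * -1)
  have hne : a ≠ a' := fun h => hz (by rw [ha, ha'] at h; linarith)
  have hsum : Affine.Point.some a b hR + Affine.Point.some a' b' hR' =
      -Affine.Point.some x y hP := by
    rw [Affine.Point.add_of_X_ne hne, Affine.Point.neg_some]
    have hs : (shortCurve A B).toAffine.slope a a' b b' = t := by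
      rw [Affine.slope_of_X_ne hne, div_eq_iff (sub_ne_zero.mpr hne), hb, hb']; ring
    have hx' : (shortCurve A B).toAffine.addX a a' t = x := by
      rw [Affine.addX, ha, ha', hk]; simp; ring
    simp only [Affine.Point.some.injEq, hs, hx', true_and]
    rw [Affine.addY, Affine.negY, Affine.negAddY, hx', Affine.negY, hb]
    simp only [zero_mul, sub_zero]
    ring
  have hneg : (shortCurve A B).toAffine.Nonsingular a' ((shortCurve A B).toAffine.negY a' b') :=
    (Affine.nonsingular_neg a' b').mpr hR'
  have hdiff : Affine.Point.some a b hR - Affine.Point.some a' b' hR' =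
      -Affine.Point.some x y hP - 2 • Affine.Point.some a' b' hR' := by
    rw [← hsum, two_nsmul]; abel
  rw [sub_eq_add_neg, Affine.Point.neg_some, Affine.Point.add_of_X_ne hne] at hdiff
  refine ⟨a', b', hR', _, _, _, by rw [ha', hk]; ring, rfl, hdiff, ?_⟩
  rw [Affine.slope_of_X_ne hne, Affine.addX, Affine.negY]
  have hz' : a - a' = z := by rw [ha, ha']; ring
  simp only [zero_mul, sub_zero, add_zero]
  rw [hz', hb, hb', ha, ha', hk]
  simp only [hess, pointBQ]
  field_simp
  linear_combination -192 * (t ^ 2 - x) * he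

theorem eq_or_neg_of_x {x y y' : ℚ} {h : (shortCurve A B).toAffine.Nonsingular x y}
    {h' : (shortCurve A B).toAffine.Nonsingular x y'} :
    Affine.Point.some x y h = Affine.Point.some x y' h' ∨
      Affine.Point.some x y h = -Affine.Point.some x y' h' := by
  rcases Affine.Y_eq_of_X_eq h.1 h'.1 rfl with e | e
  · exact Or.inl (by simp only [Affine.Point.some.injEq]; exact ⟨trivial, e⟩)
  · exact Or.inr (by
      rw [Affine.Point.neg_some]
      simp only [Affine.Point.some.injEq]
      exact ⟨trivial, e⟩)

/-- The coset of the doubles. -/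
abbrev cosetOf (P : (shortCurve A B).toAffine.Point) :
    (shortCurve A B).toAffine.Point ⧸ doubles A B := QuotientAddGroup.mk P

theorem cosetOf_neg (P : (shortCurve A B).toAffine.Point) : cosetOf (-P) = cosetOf P :=
  (QuotientAddGroup.eq).mpr ⟨P, by simp [two_nsmul]⟩

theorem cosetOf_sub_two (P R : (shortCurve A B).toAffine.Point) :
    cosetOf (-P - 2 • R) = cosetOf P :=
  (QuotientAddGroup.eq).mpr ⟨P + R, by simp [two_nsmul]; abel⟩

include hΔ in
theorem double_of_eqv_trivial {x y : ℚ} (hP : (shortCurve A B).toAffine.Nonsingular x y)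
    (h : (pointBQ A x y).Eqv (trivialForm A B)) : Affine.Point.some x y hP ∈ doubles A B := by
  obtain ⟨p, q, r, s, hd, he⟩ := h
  have h0 := congrArg (fun g : BQ ℚ => g.a) he
  simp only [move, scale, act, trivialForm] at h0
  have hg := (mul_eq_zero.mp h0).resolve_left (inv_ne_zero (pow_ne_zero 2 hd))
  simp only [BQ.eval, pointBQ] at hg
  have hr : r ≠ 0 := by
    rintro rfl
    refine hd ?_
    have hp : p = 0 := by simpa using hg
    rw [hp]; ring
  set t := p / r
  have hq : t ^ 4 - 6 * x * t ^ 2 + 8 * y * t - 4 * A - 3 * x ^ 2 = 0 := by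
    simp only [t]
    field_simp
    linear_combination hg
  have e := shortCurve_equation.mp hP.1
  refine mem_doubles_of_tangent hΔ (m := t) (n := y - t * x) (k := (t ^ 2 - x) / 2) (by ring)
    ?_ ?_ hP
  · linear_combination -hq / 4
  · linear_combination x / 4 * hq - e

include hΔ in
theorem eqv_trivial_of_double {x y : ℚ} (hP : (shortCurve A B).toAffine.Nonsingular x y)
    (h : Affine.Point.some x y hP ∈ doubles A B) : (pointBQ A x y).Eqv (trivialForm A B) := by
  obtain ⟨S, hS⟩ := h
  change 2 • S = _ at hS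
  rcases S with _ | ⟨k, l, hkl⟩
  · rw [show (Affine.Point.zero : (shortCurve A B).toAffine.Point) = 0 from rfl, nsmul_zero] at hS
    exact absurd hS.symm (Affine.Point.some_ne_zero _)
  have hl : l ≠ (shortCurve A B).toAffine.negY k l := by
    intro e
    rw [two_nsmul, Affine.Point.add_self_of_Y_eq e] at hS
    exact Affine.Point.some_ne_zero _ hS.symm
  rw [two_nsmul, Affine.Point.add_self_of_Y_ne hl] at hS
  simp only [Affine.Point.some.injEq] at hS
  set m := (shortCurve A B).toAffine.slope k k l l
  have hl2 : l - -l ≠ 0 := by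
    intro e
    exact hl (by simp [Affine.negY]; linarith)
  have hm : m * (l - -l) = 3 * k ^ 2 + A := by
    have : m = (3 * k ^ 2 + A) / (l - -l) := by
      simp only [m]
      rw [Affine.slope_of_Y_ne rfl hl, Affine.negY]
      simp
    rw [this, div_mul_cancel₀ _ hl2]
  obtain ⟨h1, h2⟩ := hS
  rw [Affine.addY, Affine.negY, Affine.negAddY, h1] at h2
  rw [Affine.addX] at h1
  simp only [zero_mul, sub_zero, add_zero] at h1 h2
  have hA : A = 2 * m * l - 3 * k ^ 2 := by linear_combination -hm
  obtain ⟨i1, i2⟩ := pointBQ_inv (shortCurve_equation.mp hP.1)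
  refine eqv_trivialForm i1 i2 hΔ (u := -m) (w := 1) (Or.inr one_ne_zero) ?_
  simp only [BQ.eval, pointBQ]
  rw [← h2, ← h1, hA]
  ring

include hΔ in
theorem exists_x_of_hess {x y : ℚ} (hP : (shortCurve A B).toAffine.Nonsingular x y) {t z : ℚ}
    (hz : z ≠ 0) (he : z ^ 2 = (pointBQ A x y).eval t 1) {X Y : ℚ}
    (hQ : (shortCurve A B).toAffine.Nonsingular X Y)
    (hx : 48 * X * z ^ 2 = (pointBQ A x y).hess t 1) :
    cosetOf (Affine.Point.some x y hP) = cosetOf (Affine.Point.some X Y hQ) := by
  obtain ⟨a', b', hR', X', Y', hX', -, -, hpt, hx'⟩ := exists_coset_point hΔ hP hz he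
  obtain rfl : X' = X :=
    mul_left_cancel₀ (show (48 : ℚ) ≠ 0 by norm_num)
      (mul_right_cancel₀ (pow_ne_zero 2 hz) (hx'.trans hx.symm))
  rw [← cosetOf_sub_two (Affine.Point.some x y hP) (Affine.Point.some a' b' hR'), ← hpt]
  rcases eq_or_neg_of_x (h := hX') (h' := hQ) with e | e
  · rw [e]
  · rw [e, cosetOf_neg]

include hΔ in
theorem coset_eq_of_class_eq {P Q : (shortCurve A B).toAffine.Point}
    (h : pointClass P = pointClass Q) : cosetOf P = cosetOf Q := by
  have hz : ∀ {S : (shortCurve A B).toAffine.Point}, S ∈ doubles A B → cosetOf S = cosetOf 0 :=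
    fun {S} hS => (QuotientAddGroup.eq_zero_iff S).mpr hS
  rcases P with _ | ⟨x, y, hP⟩ <;> rcases Q with _ | ⟨x', y', hQ⟩
  · rfl
  · exact (hz (double_of_eqv_trivial hΔ hQ (eqv_of_formClass_eq h.symm))).symm
  · exact hz (double_of_eqv_trivial hΔ hP (eqv_of_formClass_eq h))
  obtain ⟨p, q, r, s, hd, he⟩ := eqv_of_formClass_eq (show
    formClass (pointBQ A x y) = formClass (pointBQ A x' y') from h)
  set D := p * s - q * r with hD
  have h1 : (pointBQ A x y).eval p r = D ^ 2 := by
    have := congrArg (fun g : BQ ℚ => g.a) he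
    simp only [move, scale, act, ← hD, show (pointBQ A x' y').a = 1 from rfl] at this
    field_simp at this
    linear_combination this
  have h2 : (pointBQ A x y).hess p r = 48 * x' * D ^ 2 := by
    have := congrArg (fun g : BQ ℚ => g.hess 1 0) he
    simp only [move, hess_scale, hess_act, ← hD, mul_one, mul_zero, add_zero,
      show (pointBQ A x' y').hess 1 0 = 48 * x' by simp [hess, pointBQ]; ring] at this
    field_simp at this
    linear_combination this
  by_cases hr : r = 0
  · subst hr
    obtain rfl : x' = x := by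
      simp only [BQ.eval, pointBQ] at h1
      simp only [hess, pointBQ] at h2
      refine mul_left_cancel₀ (show (48 : ℚ) ≠ 0 by norm_num)
        (mul_right_cancel₀ (pow_ne_zero 2 hd) ?_)
      linear_combination -h2 + 48 * x * h1
    rcases eq_or_neg_of_x (h := hP) (h' := hQ) with e | e
    · rw [e]
    · rw [e, cosetOf_neg]
  refine exists_x_of_hess hΔ hP (t := p / r) (z := D / r ^ 2)
    (div_ne_zero hd (pow_ne_zero 2 hr)) ?_ hQ ?_
  · simp only [BQ.eval, pointBQ] at h1 ⊢
    field_simp
    linear_combination -h1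
  · simp only [hess, pointBQ] at h2 ⊢
    field_simp
    linear_combination -h2

include hΔ in
/-- `P` and `-P - 2 R'` have the same class. -/
theorem class_sub_two {x y a' b' : ℚ} (hP : (shortCurve A B).toAffine.Nonsingular x y)
    (hR' : (shortCurve A B).toAffine.Nonsingular a' b') (hne : a' ≠ x)
    (hnd : Affine.Point.some x y hP ∉ doubles A B) :
    pointClass (-Affine.Point.some x y hP - 2 • Affine.Point.some a' b' hR') =
      pointClass (Affine.Point.some x y hP) := by
  set t := (b' - y) / (a' - x)
  set z := t ^ 2 - x - 2 * a'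
  have ht : t * (a' - x) = b' - y := div_mul_cancel₀ _ (sub_ne_zero.mpr hne)
  clear_value t
  have e := shortCurve_equation.mp hP.1
  have e' := shortCurve_equation.mp hR'.1
  have he : z ^ 2 = (pointBQ A x y).eval t 1 := by
    refine mul_right_cancel₀ (sub_ne_zero.mpr hne) ?_
    simp only [z, BQ.eval, pointBQ]
    linear_combination 4 * e - 4 * e' + (4 * (b' + y) + 4 * t * (a' - x)) * ht * -1
  obtain ⟨i1, i2⟩ := pointBQ_inv e
  have hz : z ≠ 0 := fun h0 => by
    rw [h0, zero_pow two_ne_zero] at he
    exact hnd (double_of_eqv_trivial hΔ hP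
      (eqv_trivialForm i1 i2 hΔ (Or.inr one_ne_zero) he.symm))
  obtain ⟨a₁, b₁, hR₁, X, Y, hX, ha₁, hb₁, hpt, hx⟩ := exists_coset_point hΔ hP hz he
  obtain rfl : a₁ = a' := by rw [ha₁]; simp only [z]; ring
  obtain rfl : b₁ = b' := by rw [hb₁, ht]; ring
  rw [← hpt]
  obtain ⟨X', Y', h', hX', heq⟩ := eqv_pointBQ i1 i2 hz he
  obtain rfl : X' = X := mul_left_cancel₀ (show (48 : ℚ) ≠ 0 by norm_num)
    (mul_right_cancel₀ (pow_ne_zero 2 hz) (hX'.trans hx.symm))
  show formClass (pointBQ A X' Y) = formClass (pointBQ A x y)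
  rcases eq_or_neg_of_x (h := nonsingular_of_eq hΔ h') (h' := hX) with e1 | e1
  · simp only [Affine.Point.some.injEq, true_and] at e1
    rw [← e1]
    exact (formClass_eq heq).symm
  · rw [Affine.Point.neg_some] at e1
    simp only [Affine.Point.some.injEq, true_and] at e1
    rw [show Y = -Y' by rw [e1]; simp [Affine.negY]]
    exact (formClass_eq (eqv_trans heq (eqv_pointBQ_neg A X' Y'))).symm

include hΔ in
theorem class_eq_of_coset_eq {P Q : (shortCurve A B).toAffine.Point}
    (h : cosetOf P = cosetOf Q) : pointClass P = pointClass Q := by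
  obtain ⟨S, hS⟩ := (QuotientAddGroup.eq).mp h
  change 2 • S = -P + Q at hS
  obtain rfl : Q = P + 2 • S := by rw [hS]; abel
  clear h hS
  have key : ∀ S' : (shortCurve A B).toAffine.Point, S' ∈ doubles A B →
      pointClass S' = pointClass (0 : (shortCurve A B).toAffine.Point) := by
    intro S' hS'
    rcases S' with _ | ⟨a, b, hab⟩
    · rfl
    · exact formClass_eq (eqv_trivial_of_double hΔ hab hS')
  by_cases hd : P ∈ doubles A B
  · rw [key P hd, key _ (add_mem hd (show 2 • S ∈ doubles A B from ⟨S, rfl⟩))]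
  rcases P with _ | ⟨x, y, hP⟩
  · exact absurd (zero_mem _) hd
  rcases S with _ | ⟨a', b', hR'⟩
  · rw [show (Affine.Point.zero : (shortCurve A B).toAffine.Point) = 0 from rfl, nsmul_zero,
      add_zero]
  set P := Affine.Point.some x y hP
  set S := Affine.Point.some a' b' hR'
  by_cases hax : a' = x
  swap
  · rw [← class_sub_two hΔ hP hR' hax hd, ← pointClass_neg (-P - 2 • S)]
    congr 1
    abel
  subst hax
  rcases eq_or_neg_of_x (h := hR') (h' := hP) with e | e
  · -- `Q = 3 P`
    have hS : S = P := e
    rw [hS]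
    have hQd : P + 2 • P ∉ doubles A B := fun hh => hd (by
      have := sub_mem hh (show 2 • P ∈ doubles A B from ⟨P, rfl⟩)
      simpa using this)
    rcases hQ : P + 2 • P with _ | ⟨X, Y, hX⟩
    · exact absurd (hQ ▸ hQd) (fun hh => hh (zero_mem _))
    by_cases hXx : X = a'
    · subst hXx
      rcases eq_or_neg_of_x (h := hX) (h' := hP) with e1 | e1
      · rw [e1]
      · rw [e1, pointClass_neg]
    · have hneg := (Affine.nonsingular_neg (W' := (shortCurve A B).toAffine) a' y).mpr hP
      have := class_sub_two hΔ hX hneg (Ne.symm hXx) (hQ ▸ hQd)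
      rw [← this, ← Affine.Point.neg_some hP, ← hQ, ← pointClass_neg]
      congr 1
      simp only [two_nsmul]
      abel
  · have hS : S = -P := e
    rw [hS, ← pointClass_neg]
    congr 1
    simp only [two_nsmul]
    abel

end FA.SelmerAverage
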