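import Fermat.Agent.AverageRank.Main
import Fermat.Agent.SelmerAverage.Local
import Fermat.Agent.SelmerAverage.Points

/-!
# The two-Selmer classes of a curve

Apart from the trivial class each contains an integral form without rational zero, so there are
boundedly many on average; the soluble ones are the rational points modulo doubles.
-/

set_option autoImplicit false

noncomputable section

open WeierstrassCurve FA.SiegelPoints
open scoped Classical
open FA.AverageRank (shortCurve shortCurve_equation doubles classesAt slClass discr_cast_ne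
  PointsModTwo pairsUpTo minimalPairs exists_sum_bound exists_class_bound)

namespace FA.SelmerAverage

open BQ

/-- The two-Selmer classes. -/
def selmerSet (A B : ℤ) : Set (Set (BQ ℚ)) := formClass '' {f | IsSelmerForm A B f}

/-- The classes with a rational point. -/
def globalSet (A B : ℤ) : Set (Set (BQ ℚ)) :=
  formClass '' {f | IsSelmerForm A B f ∧ f.Soluble}

/-- The classes without a rational point. -/
def shaSet (A B : ℤ) : Set (Set (BQ ℚ)) :=
  formClass '' {f | IsSelmerForm A B f ∧ ¬ f.Soluble}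

theorem soluble_map {K L : Type*} [Field K] [Field L] {f : BQ K} (h : f.Soluble) (φ : K →+* L) :
    (f.map φ).Soluble := by
  obtain ⟨u, w, z, huw, he⟩ := h
  exact ⟨φ u, φ w, φ z, huw.imp (map_ne_zero φ).mpr (map_ne_zero φ).mpr,
    by rw [map_eval, ← map_pow, he]⟩

theorem isSelmerForm_of_soluble {A B : ℤ} {f : BQ ℚ} (hI : f.invI = -48 * (A : ℚ))
    (hJ : f.invJ = -1728 * (B : ℚ)) (h : f.Soluble) : IsSelmerForm A B f :=
  ⟨hI, hJ, soluble_map h _, fun p _ => soluble_map h _⟩

theorem isSelmerForm_trivial (A B : ℤ) : IsSelmerForm A B (trivialForm (A : ℚ) B) :=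
  isSelmerForm_of_soluble (trivialForm_inv _ _).1 (trivialForm_inv _ _).2 (soluble_trivialForm _ _)

theorem trivial_mem_selmerSet (A B : ℤ) :
    formClass (trivialForm (A : ℚ) B) ∈ globalSet A B ∧
      formClass (trivialForm (A : ℚ) B) ∈ selmerSet A B :=
  ⟨⟨_, ⟨isSelmerForm_trivial A B, soluble_trivialForm _ _⟩, rfl⟩,
    ⟨_, isSelmerForm_trivial A B, rfl⟩⟩

theorem ofInt_eval (G : QuarticForm) (X Z : ℤ) :
    (ofInt G).eval (X : ℚ) Z = ((G.eval X Z : ℤ) : ℚ) := by
  simp [ofInt, BQ.eval, QuarticForm.eval]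

theorem ofInt_eqv_of_mem_slClass {F G : QuarticForm} (h : G ∈ slClass F) :
    (ofInt F).Eqv (ofInt G) := by
  obtain ⟨p, q, r, s, hd, rfl⟩ := h
  have hd' : (p : ℚ) * s - q * r = 1 := by exact_mod_cast hd
  refine ⟨p, q, r, s, by rw [hd']; exact one_ne_zero, ?_⟩
  simp only [move, hd', one_pow, inv_one, scale_one]
  ext <;> simp [ofInt, BQ.act, QuarticForm.act, BQ.eval, QuarticForm.eval]

/-- The rational class of an integral class. -/
def toRatClass (C : Set QuarticForm) : Set (BQ ℚ) := ⋃ G ∈ C, formClass (ofInt G)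

theorem toRatClass_slClass (F : QuarticForm) : toRatClass (slClass F) = formClass (ofInt F) := by
  ext g
  simp only [toRatClass, Set.mem_iUnion, exists_prop]
  constructor
  · rintro ⟨G, hG, hg⟩
    rwa [formClass_eq (ofInt_eqv_of_mem_slClass hG)]
  · exact fun hg => ⟨F, FA.AverageRank.mem_slClass_self F, hg⟩

theorem selmerSet_subset {A B : ℤ} (hΔ : 4 * A ^ 3 + 27 * B ^ 2 ≠ 0) :
    selmerSet A B ⊆ insert (formClass (trivialForm (A : ℚ) B)) (toRatClass '' classesAt A B) := by
  rintro c ⟨f, hf, rfl⟩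
  obtain ⟨G, hfG, hI, hJ⟩ := exists_integral hΔ hf
  have hG' := hf.of_eqv hfG
  by_cases han : G.Anisotropic
  · refine Or.inr ⟨slClass G, ⟨G, ⟨?_, han, hI, hJ⟩, rfl⟩, ?_⟩
    · rw [QuarticForm.Nondegenerate, hI, hJ]
      intro h
      exact hΔ (mul_left_cancel₀ (show (-110592 : ℤ) ≠ 0 by norm_num) (by linear_combination h))
    · rw [toRatClass_slClass, formClass_eq hfG]
  · simp only [QuarticForm.Anisotropic, not_forall] at han
    obtain ⟨X, Z, h0, hne⟩ := han
    refine Or.inl (formClass_eq (eqv_trans hfG (eqv_trivialForm hG'.1 hG'.2.1 (discr_cast_ne hΔ)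
      (u := (X : ℚ)) (w := (Z : ℚ)) ?_ (by rw [ofInt_eval, h0, Int.cast_zero]))))
    by_contra h
    rw [not_or, not_ne_iff, not_ne_iff, Int.cast_eq_zero, Int.cast_eq_zero] at h
    exact hne ⟨h.1, h.2⟩

theorem classesAt_finite (A B : ℤ) : (classesAt A B).Finite := by
  obtain ⟨C, hC⟩ := exists_class_bound
  set Y : ℝ := 1 + 48 * |(A : ℝ)| + 1728 * |(B : ℝ)|
  have ha := abs_nonneg (A : ℝ)
  have hb := abs_nonneg (B : ℝ)
  have hY : 1 ≤ Y := by simp only [Y]; linarith
  refine (hC Y hY).1.subset ?_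
  rintro c ⟨F, ⟨h1, h2, h3, h4⟩, rfl⟩
  refine ⟨F, ⟨h1, h2, ?_, ?_⟩, rfl⟩
  · rw [h3]; push_cast; rw [abs_mul, abs_neg, Nat.abs_ofNat]
    exact le_trans (by simp only [Y]; linarith) (le_self_pow₀ hY two_ne_zero)
  · rw [h4]; push_cast; rw [abs_mul, abs_neg, Nat.abs_ofNat]
    exact le_trans (by simp only [Y]; linarith) (le_self_pow₀ hY three_ne_zero)

/-- Finitely many classes, at most one more than the integral ones. -/
theorem selmerSet_bound {A B : ℤ} (hΔ : 4 * A ^ 3 + 27 * B ^ 2 ≠ 0) :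
    (selmerSet A B).Finite ∧ (selmerSet A B).ncard ≤ 1 + (classesAt A B).ncard := by
  have hfin := ((classesAt_finite A B).image toRatClass).insert
    (formClass (trivialForm (A : ℚ) B))
  refine ⟨hfin.subset (selmerSet_subset hΔ), ?_⟩
  refine (Set.ncard_le_ncard (selmerSet_subset hΔ) hfin).trans ?_
  refine (Set.ncard_insert_le _ _).trans ?_
  have := Set.ncard_image_le (f := toRatClass) (classesAt_finite A B)
  omega

theorem card_globalSet {A B : ℤ} (hΔ : 4 * A ^ 3 + 27 * B ^ 2 ≠ 0) :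
    (globalSet A B).ncard = Nat.card (PointsModTwo (A : ℚ) B) := by
  have hΔ' := discr_cast_ne hΔ
  let ψ : PointsModTwo (A : ℚ) B → Set (BQ ℚ) := fun q => pointClass q.out
  have hinj : Function.Injective ψ := fun q q' h => by
    have := coset_eq_of_class_eq hΔ' h
    simpa [cosetOf] using this
  have hrange : Set.range ψ = globalSet A B := by
    ext c
    constructor
    · rintro ⟨q, rfl⟩
      show pointClass q.out ∈ _
      rcases q.out with _ | ⟨x, y, h⟩
      · exact (trivial_mem_selmerSet A B).1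
      · obtain ⟨i1, i2⟩ := pointBQ_inv (shortCurve_equation.mp h.1)
        exact ⟨_, ⟨isSelmerForm_of_soluble i1 i2 (soluble_pointBQ _ _ _), soluble_pointBQ _ _ _⟩,
          rfl⟩
    · rintro ⟨f, ⟨hf, hs⟩, rfl⟩
      obtain ⟨P, hP⟩ : ∃ P : (shortCurve (A : ℚ) B).toAffine.Point,
          pointClass P = formClass f := by
        rcases hs.normal hf.1 hf.2.1 hΔ' with h | ⟨x, y, hxy, h⟩
        · exact ⟨0, (formClass_eq h).symm⟩
        · exact ⟨.some x y (nonsingular_of_eq hΔ' hxy), (formClass_eq h).symm⟩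
      refine ⟨cosetOf P, ?_⟩
      show pointClass (cosetOf P).out = formClass f
      rw [← hP]
      exact class_eq_of_coset_eq hΔ' (QuotientAddGroup.out_eq' _)
  rw [← hrange, ← Nat.card_coe_set_eq]
  exact Nat.card_range_of_injective hinj

theorem card_selmer_split {A B : ℤ} (hΔ : 4 * A ^ 3 + 27 * B ^ 2 ≠ 0) :
    (selmerSet A B).ncard = Nat.card (PointsModTwo (A : ℚ) B) + (shaSet A B).ncard := by
  have hu : selmerSet A B = globalSet A B ∪ shaSet A B := by
    ext c
    constructor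
    · rintro ⟨f, hf, rfl⟩
      by_cases hs : f.Soluble
      · exact Or.inl ⟨f, ⟨hf, hs⟩, rfl⟩
      · exact Or.inr ⟨f, ⟨hf, hs⟩, rfl⟩
    · rintro (⟨f, ⟨hf, -⟩, rfl⟩ | ⟨f, ⟨hf, -⟩, rfl⟩) <;> exact ⟨f, hf, rfl⟩
  have hdis : Disjoint (globalSet A B) (shaSet A B) := by
    rw [Set.disjoint_left]
    rintro c ⟨f, ⟨-, hs⟩, rfl⟩ ⟨g, ⟨-, hns⟩, e⟩
    exact hns (hs.of_eqv (eqv_of_formClass_eq e))
  have hfin := (selmerSet_bound hΔ).1
  rw [hu] at hfin ⊢
  rw [Set.ncard_union_eq hdis (hfin.subset Set.subset_union_left)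
    (hfin.subset Set.subset_union_right), card_globalSet hΔ]

/-- **The average number of two-Selmer classes is bounded.** -/
theorem exists_selmer_bound : ∃ C : ℝ, 0 ≤ C ∧ ∀ X : ℕ, 1 ≤ X → (minimalPairs X).Nonempty ∧
    ∑ p ∈ pairsUpTo X, ((selmerSet p.1 p.2).ncard : ℝ) ≤ C * (minimalPairs X).card := by
  obtain ⟨C, hC0, hC⟩ := exists_sum_bound
  exact ⟨C, hC0, fun X hX => ⟨(hC X hX).1, (hC X hX).2 (fun A B => (selmerSet A B).ncard)
    fun A B h _ => (selmerSet_bound h).2.trans (by omega)⟩⟩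

end FA.SelmerAverage
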